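import Fermat.Agent.Jac.Point.Invertible

/-!
# The ideal of a point of an affine chart of a curve

`locPrincipal_ker` shows that it is locally principal.
-/

set_option autoImplicit false

universe u

open scoped TensorProduct

namespace Fermat.Agent.Jac.Point

variable {k : Type u} [Field k] {A : Type u} [CommRing A] [Algebra k A]
variable {B : Type u} [CommRing B] [Algebra k B]

/-- The evaluation at a point. -/
noncomputable def evPt (φ : B →ₐ[k] A) : A ⊗[k] B →ₐ[A] A :=
  Algebra.TensorProduct.lift (AlgHom.id A A) φ fun _ _ => Commute.all _ _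

theorem evPt_tmul (φ : B →ₐ[k] A) (a : A) (b : B) : evPt φ (a ⊗ₜ b) = a * φ b := by
  simp [evPt]

/-- The standard elements of the ideal of a point. -/
noncomputable def gen (φ : B →ₐ[k] A) (b : B) : A ⊗[k] B := 1 ⊗ₜ b - φ b ⊗ₜ 1

theorem evPt_gen (φ : B →ₐ[k] A) (b : B) : evPt φ (gen φ b) = 0 := by
  simp [gen, evPt_tmul]

theorem gen_mem_ker (φ : B →ₐ[k] A) (b : B) : gen φ b ∈ RingHom.ker (evPt φ).toRingHom :=
  evPt_gen φ b

theorem gen_add (φ : B →ₐ[k] A) (b c : B) : gen φ (b + c) = gen φ b + gen φ c := by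
  simp only [gen, TensorProduct.tmul_add, map_add, TensorProduct.add_tmul]; abel

theorem gen_smul (φ : B →ₐ[k] A) (a : k) (b : B) : gen φ (a • b) = a • gen φ b := by
  simp only [gen, TensorProduct.tmul_smul, map_smul, TensorProduct.smul_tmul', smul_sub]

theorem gen_mul (φ : B →ₐ[k] A) (b c : B) :
    gen φ (b * c) = (1 ⊗ₜ b) * gen φ c + (φ c ⊗ₜ 1) * gen φ b := by
  simp only [gen, mul_sub, Algebra.TensorProduct.tmul_mul_tmul, map_mul, one_mul, mul_one,
    mul_comm (φ c) (φ b)]
  abel

theorem sub_evPt_mem_span (φ : B →ₐ[k] A) (x : A ⊗[k] B) :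
    x - algebraMap A (A ⊗[k] B) (evPt φ x) ∈ Ideal.span (Set.range (gen φ)) := by
  induction x using TensorProduct.induction_on with
  | zero => simp
  | tmul a b =>
    have : a ⊗ₜ b - algebraMap A (A ⊗[k] B) (evPt φ (a ⊗ₜ b)) =
        (a ⊗ₜ[k] (1 : B)) * gen φ b := by
      simp [gen, mul_sub, Algebra.TensorProduct.tmul_mul_tmul, evPt_tmul]
    rw [this]
    exact Ideal.mul_mem_left _ _ (Ideal.subset_span ⟨b, rfl⟩)
  | add x y hx hy =>
    rw [map_add, map_add, add_sub_add_comm]
    exact Ideal.add_mem _ hx hy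

theorem ker_evPt (φ : B →ₐ[k] A) :
    RingHom.ker (evPt φ).toRingHom = Ideal.span (Set.range (gen φ)) := by
  refine le_antisymm (fun x hx => ?_) (Ideal.span_le.2 ?_)
  · have h := sub_evPt_mem_span φ x
    have hx' : evPt φ x = 0 := hx
    simpa [hx'] using h
  · rintro _ ⟨b, rfl⟩
    exact gen_mem_ker φ b

theorem map_ker_evPt {A' : Type u} [CommRing A'] [Algebra k A'] (χ : A →ₐ[k] A')
    (φ : B →ₐ[k] A) :
    (RingHom.ker (evPt φ).toRingHom).map
        (Algebra.TensorProduct.map χ (AlgHom.id k B)).toRingHom =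
      RingHom.ker (evPt (χ.comp φ)).toRingHom := by
  rw [ker_evPt, ker_evPt, Ideal.map_span, ← Set.range_comp]
  congr 2
  funext b
  simp [gen]

theorem ker_evPt_fg [Algebra.FiniteType k B] (φ : B →ₐ[k] A) :
    (RingHom.ker (evPt φ).toRingHom).FG := by
  classical
  obtain ⟨s, hs⟩ := ‹Algebra.FiniteType k B›
  refine ⟨s.image (gen φ), le_antisymm (Submodule.span_le.2 ?_) ?_⟩
  · simp only [Finset.coe_image]
    rintro _ ⟨b, _, rfl⟩
    exact gen_mem_ker φ b
  rw [ker_evPt, Ideal.span_le]
  rintro _ ⟨b, rfl⟩
  let J : Ideal (A ⊗[k] B) := Ideal.span ((s.image (gen φ) : Finset _) : Set _)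
  change gen φ b ∈ J
  have hb : b ∈ Algebra.adjoin k (s : Set B) := by rw [hs]; exact Algebra.mem_top
  induction hb using Algebra.adjoin_induction with
  | mem x hx => exact Ideal.subset_span (by simpa using ⟨x, hx, rfl⟩)
  | algebraMap r =>
    have : gen φ (algebraMap k B r) = 0 := by
      rw [Algebra.algebraMap_eq_smul_one, gen_smul, gen, map_one, sub_self, smul_zero]
    rw [this]; exact J.zero_mem
  | add x y _ _ hx hy => rw [gen_add]; exact J.add_mem hx hy
  | mul x y _ _ hx hy =>
    rw [gen_mul]; exact J.add_mem (J.mul_mem_left _ hy) (J.mul_mem_left _ hx)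

section

variable (t : B) (hfin : (Polynomial.aeval (R := k) t).toRingHom.Finite)
  (htr : Transcendental k t)
  (hded : ∀ (K : Type u) [Field K] [IsAlgClosed K] [Algebra k K], IsDedekindDomain (K ⊗[k] B))

include hfin in
theorem finiteType_of_finite : Algebra.FiniteType k B := by
  let := (Polynomial.aeval (R := k) t).toRingHom.toAlgebra
  have : Module.Finite (Polynomial k) B := hfin
  have : IsScalarTower k (Polynomial k) B := IsScalarTower.of_algebraMap_eq fun r =>
    (Polynomial.aeval_C t r).symm
  exact Algebra.FiniteType.trans (inferInstance : Algebra.FiniteType k (Polynomial k))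
    (inferInstance : Algebra.FiniteType (Polynomial k) B)

include hded in
theorem isDomain_chart : IsDomain B := by
  have := hded (AlgebraicClosure k)
  exact (Algebra.TensorProduct.includeRight_injective (R := k) (A := AlgebraicClosure k) (B := B)
    (FaithfulSMul.algebraMap_injective k (AlgebraicClosure k))).isDomain
    (Algebra.TensorProduct.includeRight (R := k) (A := AlgebraicClosure k) (B := B)).toRingHom

include hfin htr hded in
theorem regular_sub (f : A) (y : A ⊗[k] B)
    (hy : ((1 : A) ⊗ₜ[k] t - f ⊗ₜ[k] (1 : B)) * y = 0) : y = 0 := by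
  let := (Polynomial.aeval (R := k) t).toRingHom.toAlgebra
  have : Module.Finite (Polynomial k) B := hfin
  have : IsScalarTower k (Polynomial k) B := IsScalarTower.of_algebraMap_eq fun r =>
    (Polynomial.aeval_C t r).symm
  have := isDomain_chart hded
  have : FaithfulSMul (Polynomial k) B :=
    (faithfulSMul_iff_algebraMap_injective _ _).2 (transcendental_iff_injective.1 htr)
  have : Module.IsTorsionFree (Polynomial k) B := inferInstance
  have : Module.Free (Polynomial k) B := Module.free_of_finite_type_torsion_free'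
  let c := Module.Free.chooseBasis (Polynomial k) B
  let e := (Polynomial.basisMonomials k).smulTower c
  let E := Algebra.TensorProduct.basis A e
  have he : ∀ i, t * e i = e (i.1 + 1, i.2) := by
    rintro ⟨n, j⟩
    have ht : algebraMap (Polynomial k) B Polynomial.X = t := Polynomial.aeval_X t
    simp only [e, Module.Basis.smulTower_apply, Polynomial.coe_basisMonomials]
    rw [Algebra.smul_def, Algebra.smul_def, ← mul_assoc, ← ht, ← map_mul,
      Polynomial.X_mul_monomial]
  have hmul : ∀ i, ((1 : A) ⊗ₜ[k] t - f ⊗ₜ[k] (1 : B)) * E i =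
      E (i.1 + 1, i.2) - f • E i := by
    intro i
    simp only [E, Algebra.TensorProduct.basis_apply, sub_mul,
      Algebra.TensorProduct.tmul_mul_tmul, one_mul, mul_one, he, TensorProduct.smul_tmul',
      smul_eq_mul]
  have hcoef : ∀ (n : ℕ) (j : _) (z : A ⊗[k] B),
      E.repr (((1 : A) ⊗ₜ[k] t - f ⊗ₜ[k] (1 : B)) * z) (n + 1, j) =
        E.repr z (n, j) - f * E.repr z (n + 1, j) := by
    intro n j
    suffices h : (E.coord (n + 1, j)).comp
        (LinearMap.mulLeft A ((1 : A) ⊗ₜ[k] t - f ⊗ₜ[k] (1 : B))) =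
        E.coord (n, j) - f • E.coord (n + 1, j) by
      intro z; exact LinearMap.congr_fun h z
    refine E.ext fun i => ?_
    classical
    simp only [LinearMap.comp_apply, LinearMap.mulLeft_apply, hmul, map_sub, map_smul,
      LinearMap.sub_apply, LinearMap.smul_apply, Module.Basis.coord_apply,
      Module.Basis.repr_self, Finsupp.single_apply]
    rcases i with ⟨a, b⟩
    simp
  refine E.repr.injective (Finsupp.ext fun i => ?_)
  rw [map_zero, Finsupp.zero_apply]
  obtain ⟨n, j⟩ := i
  have hstep : ∀ n, E.repr y (n, j) = f * E.repr y (n + 1, j) := fun n => by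
    have := hcoef n j y
    rw [hy, map_zero, Finsupp.zero_apply] at this
    exact sub_eq_zero.1 this.symm
  obtain ⟨N, hN⟩ : ∃ N, ∀ m, N ≤ m → E.repr y (m, j) = 0 := by
    classical
    refine ⟨(E.repr y).support.sup Prod.fst + 1, fun m hm => ?_⟩
    by_contra hne
    have h1 := Finset.le_sup (f := Prod.fst) (Finsupp.mem_support_iff.2 hne)
    simp only at h1
    omega
  suffices ∀ d n, N ≤ n + d → E.repr y (n, j) = 0 from this N n (Nat.le_add_left _ _)
  intro d
  induction d with
  | zero => intro n hn; exact hN n (by simpa using hn)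
  | succ d ih => intro n hn; rw [hstep, ih (n + 1) (by omega), mul_zero]

include hfin htr hded in
/-- On a geometric fibre the cotangent space at a point is a line: some element of the chart
detects every derivation at that point. -/
theorem exists_derivation_det {K : Type u} [Field K] [IsAlgClosed K] [Algebra k K]
    (ψ : B →ₐ[k] K) :
    ∃ b₀ : B, ∀ d : B →ₗ[k] K, (∀ b c, d (b * c) = ψ b * d c + ψ c * d b) → d b₀ = 0 → d = 0 := by
  have := hded K
  set M := RingHom.ker (evPt ψ).toRingHom with hM
  have hMmax : M.IsMaximal :=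
    RingHom.ker_isMaximal_of_surjective (evPt ψ).toRingHom fun a => ⟨a ⊗ₜ 1, by simp [evPt_tmul]⟩
  have := hMmax.isPrime
  have hMne : M ≠ ⊥ := by
    intro hb
    have h0 : gen ψ t = 0 := Ideal.mem_bot.1 (hb ▸ gen_mem_ker ψ t)
    exact one_ne_zero (regular_sub (A := K) t hfin htr hded (ψ t) 1
      (by rw [mul_one]; exact h0))
  obtain ⟨b₀, hb₀⟩ : ∃ b₀, gen ψ b₀ ∉ M ^ 2 := by
    by_contra hne
    have hsub : M ≤ M ^ 2 := by
      refine (ker_evPt ψ).trans_le (Ideal.span_le.2 ?_)
      rintro _ ⟨b, rfl⟩
      exact not_not.1 fun hb => hne ⟨b, hb⟩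
    have hlt := Ideal.pow_succ_lt_pow hMne 1
    rw [pow_one] at hlt
    exact hlt.not_ge hsub
  have hMeq : M ^ 2 ⊔ Ideal.span {gen ψ b₀} = M := by
    have h := Ideal.eq_prime_pow_of_succ_lt_of_le hMne (i := 1)
      (lt_of_le_of_ne (le_sup_left (b := Ideal.span {gen ψ b₀})) fun heq =>
        hb₀ (heq ▸ Ideal.mem_sup_right (Ideal.mem_span_singleton_self _)))
      (by
        rw [pow_one]
        exact sup_le (Ideal.pow_le_self two_ne_zero)
          ((Ideal.span_singleton_le_iff_mem _).2 (gen_mem_ker ψ b₀)))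
    rw [h, pow_one]
  refine ⟨b₀, fun d hd hd0 => LinearMap.ext fun b => ?_⟩
  let D : K ⊗[k] B →ₗ[k] K := (LinearMap.mul' k K).comp (TensorProduct.map LinearMap.id d)
  have hDt : ∀ a b, D (a ⊗ₜ b) = a * d b := fun a b => by simp [D]
  have hDmul : ∀ x y, D (x * y) = evPt ψ x * D y + evPt ψ y * D x := by
    intro x y
    induction x using TensorProduct.induction_on with
    | zero => simp
    | add x x' hx hx' =>
      simp only [add_mul, map_add, hx, hx', mul_add]; ring
    | tmul a b =>
      induction y using TensorProduct.induction_on with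
      | zero => simp
      | add y y' hy hy' =>
        simp only [mul_add, map_add, hy, hy', add_mul]; ring
      | tmul a' b' =>
        simp only [Algebra.TensorProduct.tmul_mul_tmul, hDt, hd, evPt_tmul]; ring
  have hDgen : ∀ b, D (gen ψ b) = d b := by
    intro b
    have h1 : d (1 : B) = 0 := by simpa using hd 1 1
    simp [gen, hDt, h1]
  have hDM : ∀ x ∈ M, D x = 0 := by
    intro x hx
    rw [← hMeq] at hx
    obtain ⟨y, hy, z, hz, rfl⟩ := Submodule.mem_sup.1 hx
    obtain ⟨r, rfl⟩ := Ideal.mem_span_singleton'.1 hz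
    have hy0 : D y = 0 := by
      rw [pow_two] at hy
      refine Submodule.mul_induction_on hy (fun a ha b hb => ?_) (fun a b ha hb => ?_)
      · rw [hDmul, show evPt ψ a = 0 from ha, show evPt ψ b = 0 from hb]; simp
      · simp [ha, hb]
    rw [map_add, hDmul, hy0, evPt_gen, hDgen, hd0]
    simp
  exact (hDgen b).symm.trans (hDM _ (gen_mem_ker ψ b))

include hfin htr hded in
/-- The ideal of a point of a chart is locally principal. -/
theorem locPrincipal_ker (φ : B →ₐ[k] A) : LocPrincipal (RingHom.ker (evPt φ).toRingHom) := by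
  intro P hP hle
  set I := RingHom.ker (evPt φ).toRingHom with hI
  let R := A ⊗[k] B
  let L := Localization.AtPrime P
  let κ := IsLocalRing.ResidueField L
  let K := AlgebraicClosure κ
  let q : R →+* K := (algebraMap κ K).comp ((IsLocalRing.residue L).comp (algebraMap R L))
  let : Algebra k K := ((q.comp (algebraMap A R)).comp (algebraMap k A)).toAlgebra
  let χ : A →ₐ[k] K := { q.comp (algebraMap A R) with commutes' := fun r => rfl }
  have hq : ∀ x, q x = χ (evPt φ x) := by
    intro x
    have hx : x - algebraMap A R (evPt φ x) ∈ P :=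
      hle (by rw [hI, ker_evPt]; exact sub_evPt_mem_span φ x)
    have h0 : IsLocalRing.residue L (algebraMap R L (x - algebraMap A R (evPt φ x))) = 0 :=
      (IsLocalRing.residue_eq_zero_iff _).2
        ((IsLocalization.AtPrime.to_map_mem_maximal_iff L P _).2 hx)
    have h1 : q (x - algebraMap A R (evPt φ x)) = 0 := by
      simp only [q, RingHom.comp_apply, h0, map_zero]
    exact sub_eq_zero.1 (by rwa [map_sub] at h1)
  let ψ := χ.comp φ
  obtain ⟨b₀, hb₀⟩ := exists_derivation_det t hfin htr hded ψ
  have := finiteType_of_finite t hfin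
  let J := I.map (algebraMap R L)
  have hJfg : J.FG := (ker_evPt_fg φ).map _
  have : Module.Finite L J := Module.Finite.iff_fg.2 hJfg
  let γ : B → J := fun b => ⟨algebraMap R L (gen φ b), Ideal.mem_map_of_mem _ (gen_mem_ker φ b)⟩
  let τ : J →ₗ[L] κ ⊗[L] J := TensorProduct.mk L κ J 1
  have hγtop : Submodule.span L (Set.range γ) = ⊤ := by
    refine Submodule.map_injective_of_injective (Submodule.subtype_injective _) ?_
    rw [Submodule.map_span, ← Set.range_comp, Submodule.map_top, Submodule.range_subtype]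
    change Ideal.span (Set.range (algebraMap R L ∘ gen φ)) = J
    rw [Set.range_comp, ← Ideal.map_span, ← ker_evPt]
  have hτtop : Submodule.span κ (Set.range (τ ∘ γ)) = ⊤ := by
    rw [Set.range_comp]
    refine eq_top_iff.2 fun z _ => ?_
    induction z using TensorProduct.induction_on with
    | zero => exact zero_mem _
    | add x y hx hy => exact add_mem (hx trivial) (hy trivial)
    | tmul a x =>
      have hx : τ x ∈ Submodule.span κ (τ '' Set.range γ) :=
        Submodule.span_subset_span L κ _ (by
          rw [← Submodule.map_span, hγtop]; exact ⟨x, trivial, rfl⟩)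
      have : a ⊗ₜ[L] x = a • τ x := by simp [τ, TensorProduct.smul_tmul']
      rw [this]
      exact Submodule.smul_mem _ a hx
  have hnak : Submodule.span L {γ b₀} = ⊤ := by
    by_contra hne
    have hlt : Submodule.span κ {τ (γ b₀)} < ⊤ := by
      refine lt_top_iff_ne_top.2 fun heq => hne
        ((IsLocalRing.map_tensorProduct_mk_eq_top (R := L) (M := J)).1 ?_)
      rw [eq_top_iff]
      intro z _
      have hz : z ∈ Submodule.span κ {τ (γ b₀)} := heq ▸ trivial
      obtain ⟨a, rfl⟩ := Submodule.mem_span_singleton.1 hz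
      obtain ⟨r, rfl⟩ := IsLocalRing.residue_surjective a
      exact ⟨r • γ b₀, Submodule.smul_mem _ r (Submodule.mem_span_singleton_self _), by
        rw [map_smul]; exact IsScalarTower.algebraMap_smul κ r (τ (γ b₀)) ▸ rfl⟩
    obtain ⟨ξ, hξ0, hξ⟩ := Submodule.exists_le_ker_of_lt_top _ hlt
    let d : B → K := fun b => algebraMap κ K (ξ (τ (γ b)))
    have hγadd : ∀ b c, γ (b + c) = γ b + γ c := fun b c => Subtype.ext (by
      simp [γ, gen_add])
    have hd : ∀ (x y : R) (a b c : B), gen φ a = x * gen φ b + y * gen φ c →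
        d a = χ (evPt φ x) * d b + χ (evPt φ y) * d c := by
      intro x y a b c habc
      have hγ : γ a = algebraMap R L x • γ b + algebraMap R L y • γ c := Subtype.ext (by
        simp only [γ, Submodule.coe_add, Submodule.coe_smul, smul_eq_mul, habc, map_add, map_mul])
      simp only [d, hγ, map_add, map_smul]
      rw [← IsScalarTower.algebraMap_smul κ (algebraMap R L x),
        ← IsScalarTower.algebraMap_smul κ (algebraMap R L y)]
      simp only [map_smul, smul_eq_mul, map_mul, ← hq]
      rfl
    let dl : B →ₗ[k] K :=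
      { toFun := d
        map_add' := fun b c => by simp [d, hγadd]
        map_smul' := fun r b => by
          have h := hd (algebraMap k R r) 0 (r • b) b b (by
            rw [gen_smul, zero_mul, add_zero, Algebra.smul_def])
          have h2 : evPt φ (algebraMap k R r) = algebraMap k A r := by
            rw [IsScalarTower.algebraMap_apply k A R, AlgHom.commutes]; rfl
          simp only [map_zero, zero_mul, add_zero, h2, AlgHom.commutes] at h
          simpa [Algebra.smul_def] using h }
    have hdmul : ∀ b c, dl (b * c) = ψ b * dl c + ψ c * dl b := by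
      intro b c
      have h := hd ((1 : A) ⊗ₜ b) (φ c ⊗ₜ 1) (b * c) c b (gen_mul φ b c)
      simpa [evPt_tmul, ψ, dl] using h
    have h00 : ξ (τ (γ b₀)) = 0 :=
      LinearMap.mem_ker.1 (hξ (Submodule.mem_span_singleton_self _))
    have hdl : dl = 0 := hb₀ dl hdmul (by simp [dl, d, h00])
    apply hξ0
    refine LinearMap.ext_on hτtop ?_
    rintro _ ⟨b, rfl⟩
    have hb : algebraMap κ K (ξ (τ (γ b))) = 0 := LinearMap.congr_fun hdl b
    simpa using (algebraMap κ K).injective (hb.trans (map_zero _).symm)
  obtain ⟨S, hS⟩ := ker_evPt_fg φ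
  have hloc : ∀ x ∈ I, ∃ h, h ∉ P ∧ h * x ∈ Ideal.span {gen φ b₀} := by
    intro x hx
    have hxJ : (⟨algebraMap R L x, Ideal.mem_map_of_mem _ hx⟩ : J) ∈
        Submodule.span L {γ b₀} := hnak ▸ trivial
    obtain ⟨a, ha⟩ := Submodule.mem_span_singleton.1 hxJ
    have hmem : algebraMap R L x ∈ (Ideal.span {gen φ b₀}).map (algebraMap R L) := by
      rw [Ideal.map_span, Set.image_singleton]
      exact Ideal.mem_span_singleton'.2 ⟨a, congrArg Subtype.val ha⟩
    obtain ⟨h, hh, hmem'⟩ :=
      (IsLocalization.algebraMap_mem_map_algebraMap_iff P.primeCompl L _ _).1 hmem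
    exact ⟨h, hh, hmem'⟩
  choose hf hhf using hloc
  have hSI : ∀ x ∈ S, x ∈ I := fun x hx => hS.le (Submodule.subset_span hx)
  refine ⟨gen φ b₀, gen_mem_ker φ b₀, ∏ x ∈ S.attach, hf x.1 (hSI x.1 x.2), ?_, ?_⟩
  · intro hmem
    obtain ⟨x, _, hx⟩ := hP.prod_mem_iff.1 hmem
    exact (hhf x.1 (hSI x.1 x.2)).1 hx
  · intro x hx
    have hle' : I ≤ (Ideal.span {gen φ b₀}).colon
        ({∏ x ∈ S.attach, hf x.1 (hSI x.1 x.2)} : Set R) := by
      rw [show I = Submodule.span R (S : Set R) from hS.symm]
      refine Submodule.span_le.2 fun y hy => ?_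
      rw [SetLike.mem_coe, Submodule.mem_colon_singleton, smul_eq_mul, mul_comm]
      classical
      rw [← Finset.prod_erase_mul S.attach _ (Finset.mem_attach S ⟨y, hy⟩), mul_assoc]
      exact Ideal.mul_mem_left _ _ (hhf y _).2
    have := Submodule.mem_colon_singleton.1 (hle' hx)
    rwa [smul_eq_mul, mul_comm] at this

end

end Fermat.Agent.Jac.Point
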