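import Fermat.Agent.Jac.Data
import Fermat.Agent.Jac.Point.ChartIdeal

/-!
# Line data given by a pair of ideals, and the two restriction maps as localisations

`exists_hasIdeals` builds the line data from ideals agreeing on the overlap.
-/

set_option autoImplicit false

universe u

open scoped TensorProduct

namespace Fermat.Agent.Jac

namespace Point

variable {k : Type u} [Field k] {m : CurveModel k} {A : Type u} [CommRing A] [Algebra k A]
variable {A' : Type u} [CommRing A'] [Algebra k A']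

theorem injAway_map {B C : Type u} [CommRing B] [Algebra k B] [CommRing C] [Algebra k C]
    (i : B →ₐ[k] C) (hi : Function.Injective i) (e : B) (he : IsUnit (i e))
    (hs : ∀ x : C, ∃ (n : ℕ) (y : B), i y = i e ^ n * x) :
    InjAway (Algebra.TensorProduct.map (AlgHom.id A A) i).toRingHom ((1 : A) ⊗ₜ e) where
  inj := Module.Flat.lTensor_preserves_injective_linearMap (M := A) i.toLinearMap hi
  isUnit := he.map (Algebra.TensorProduct.includeRight (R := k) (A := A) (B := C))
  surj x := by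
    induction x using TensorProduct.induction_on with
    | zero => exact ⟨0, 0, by simp⟩
    | tmul a c =>
      obtain ⟨n, y, hy⟩ := hs c
      exact ⟨n, a ⊗ₜ y, by simp [hy]⟩
    | add x x' hx hx' =>
      obtain ⟨n, y, hy⟩ := hx
      obtain ⟨n', y', hy'⟩ := hx'
      refine ⟨n + n', ((1 : A) ⊗ₜ e) ^ n' * y + ((1 : A) ⊗ₜ e) ^ n * y', ?_⟩
      simp only [map_add, map_mul, map_pow, hy, hy', pow_add]
      ring

theorem isUnit_i0_t : IsUnit (m.i0 m.t) :=
  ⟨⟨m.i0 m.t, m.i1 m.s, m.t_mul_s, by rw [mul_comm]; exact m.t_mul_s⟩, rfl⟩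

theorem isUnit_i1_s : IsUnit (m.i1 m.s) :=
  ⟨⟨m.i1 m.s, m.i0 m.t, by rw [mul_comm]; exact m.t_mul_s, m.t_mul_s⟩, rfl⟩

theorem injAway0 : InjAway (m.ι0 A) (m.tA A) :=
  injAway_map m.i0 m.i0_injective m.t isUnit_i0_t m.surj0

theorem injAway1 : InjAway (m.ι1 A) (m.sA A) :=
  injAway_map m.i1 m.i1_injective m.s isUnit_i1_s m.surj1

theorem map01_ι0 (φ : A →ₐ[k] A') (x : m.R0 A) :
    m.map01 φ (m.ι0 A x) = m.ι0 A' (m.map0 φ x) := by
  induction x using TensorProduct.induction_on with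
  | zero => simp
  | tmul a b => simp [CurveModel.map01, CurveModel.map0, CurveModel.ι0]
  | add x y hx hy => simp only [map_add, hx, hy]

theorem map01_ι1 (φ : A →ₐ[k] A') (x : m.R1 A) :
    m.map01 φ (m.ι1 A x) = m.ι1 A' (m.map1 φ x) := by
  induction x using TensorProduct.induction_on with
  | zero => simp
  | tmul a b => simp [CurveModel.map01, CurveModel.map1, CurveModel.ι1]
  | add x y hx hy => simp only [map_add, hx, hy]

end Point

namespace LineData

variable {k : Type u} [Field k] {m : CurveModel k} {A : Type u} [CommRing A] [Algebra k A]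

/-- `D` is given by the ideals `I0` and `I1` in the two charts. -/
def HasIdeals (D : LineData m A) (I0 : Ideal (m.R0 A)) (I1 : Ideal (m.R1 A)) : Prop :=
  ∃ (j0 : D.M0 →ₗ[m.R0 A] m.R0 A) (j1 : D.M1 →ₗ[m.R1 A] m.R1 A)
    (j01 : D.M01 →ₗ[m.R01 A] m.R01 A),
    Function.Injective j0 ∧ Function.Injective j1 ∧ Function.Injective j01 ∧
    (∀ x, j01 (D.res0 x) = m.ι0 A (j0 x)) ∧ (∀ x, j01 (D.res1 x) = m.ι1 A (j1 x)) ∧
    LinearMap.range j0 = I0 ∧ LinearMap.range j1 = I1

theorem span_range_restrict {R S : Type u} [CommRing R] [CommRing S] (ι : R →+* S) (I : Ideal R)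
    (J : Ideal S) (hJ : I.map ι = J) (r : I →ₛₗ[ι] J) (hr : ∀ x, (r x : S) = ι x) :
    Submodule.span S (Set.range r) = ⊤ := by
  refine Submodule.map_injective_of_injective (Submodule.subtype_injective _) ?_
  rw [Submodule.map_span, ← Set.range_comp, Submodule.map_top, Submodule.range_subtype]
  subst hJ
  refine congrArg (Submodule.span S) ?_
  ext y
  constructor
  · rintro ⟨x, rfl⟩; exact ⟨x.1, x.2, (hr x).symm⟩
  · rintro ⟨x, hx, rfl⟩; exact ⟨⟨x, hx⟩, hr ⟨x, hx⟩⟩

/-- Construction of line data from a pair of ideals. -/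
theorem exists_hasIdeals (I0 : Ideal (m.R0 A)) (I1 : Ideal (m.R1 A))
    (h0 : Module.Invertible (m.R0 A) I0) (h1 : Module.Invertible (m.R1 A) I1)
    (h01 : Module.Invertible (m.R01 A) (I0.map (m.ι0 A) : Ideal (m.R01 A)))
    (h : I1.map (m.ι1 A) = I0.map (m.ι0 A)) :
    ∃ D : LineData m A, D.HasIdeals I0 I1 := by
  let J : Ideal (m.R01 A) := I0.map (m.ι0 A)
  let r0 : I0 →ₛₗ[m.ι0 A] J :=
    { toFun := fun x => ⟨m.ι0 A x, Ideal.mem_map_of_mem _ x.2⟩
      map_add' := fun x y => Subtype.ext (map_add (m.ι0 A) _ _)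
      map_smul' := fun r x => Subtype.ext (map_mul (m.ι0 A) _ _) }
  let r1 : I1 →ₛₗ[m.ι1 A] J :=
    { toFun := fun x => ⟨m.ι1 A x, h.le (Ideal.mem_map_of_mem _ x.2)⟩
      map_add' := fun x y => Subtype.ext (map_add (m.ι1 A) _ _)
      map_smul' := fun r x => Subtype.ext (map_mul (m.ι1 A) _ _) }
  let D : LineData m A :=
    { M0 := I0
      M1 := I1
      M01 := J
      invertible0 := h0
      invertible1 := h1
      invertible01 := h01
      res0 := r0
      res1 := r1
      span0 := span_range_restrict _ _ _ rfl r0 fun _ => rfl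
      span1 := span_range_restrict _ _ _ h r1 fun _ => rfl }
  exact ⟨D, I0.subtype, I1.subtype, J.subtype, I0.subtype_injective, I1.subtype_injective,
    J.subtype_injective, fun _ => rfl, fun _ => rfl, I0.range_subtype, I1.range_subtype⟩

theorem map_range_res0 (D : LineData m A) (j0 : D.M0 →ₗ[m.R0 A] m.R0 A)
    (j01 : D.M01 →ₗ[m.R01 A] m.R01 A) (c0 : ∀ x, j01 (D.res0 x) = m.ι0 A (j0 x)) :
    Ideal.map (m.ι0 A) (LinearMap.range j0) = LinearMap.range j01 := by
  rw [LinearMap.range_eq_map j01, ← D.span0, Submodule.map_span, ← Set.range_comp,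
    show (j01 ∘ D.res0 : D.M0 → m.R01 A) = m.ι0 A ∘ j0 from funext c0, Set.range_comp]
  rfl

theorem exists_linearEquiv_of_range {R M N : Type u} [CommRing R] [AddCommGroup M] [Module R M]
    [AddCommGroup N] [Module R N] {j : M →ₗ[R] R} {j' : N →ₗ[R] R} (hj : Function.Injective j)
    (hj' : Function.Injective j') (h : LinearMap.range j = LinearMap.range j') :
    ∃ e : M ≃ₗ[R] N, ∀ x, j' (e x) = j x := by
  refine ⟨(LinearEquiv.ofInjective j hj).trans
    ((LinearEquiv.ofEq _ _ h).trans (LinearEquiv.ofInjective j' hj').symm), fun x => ?_⟩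
  simp [LinearEquiv.ofInjective_apply]

/-- Line data given by the same pair of ideals are isomorphic. -/
theorem HasIdeals.iso {D E : LineData m A} {I0 : Ideal (m.R0 A)} {I1 : Ideal (m.R1 A)}
    (hD : D.HasIdeals I0 I1) (hE : E.HasIdeals I0 I1) : Nonempty (Iso D E) := by
  obtain ⟨j0, j1, j01, i0, i1, i01, c0, c1, r0, r1⟩ := hD
  obtain ⟨l0, l1, l01, p0, p1, p01, d0, d1, s0, s1⟩ := hE
  obtain ⟨e0, he0⟩ := exists_linearEquiv_of_range i0 p0 (r0.trans s0.symm)
  obtain ⟨e1, he1⟩ := exists_linearEquiv_of_range i1 p1 (r1.trans s1.symm)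
  obtain ⟨e, he⟩ := exists_linearEquiv_of_range i01 p01
    (by rw [← map_range_res0 D j0 j01 c0, ← map_range_res0 E l0 l01 d0, r0, s0])
  refine ⟨⟨e0, e1, e, fun x => p01 ?_, fun x => p01 ?_⟩⟩
  · rw [d0, he0, he, c0]
  · rw [d1, he1, he, c1]

theorem exists_restrict {R S M N : Type u} [CommRing R] [CommRing S] [AddCommGroup M]
    [Module R M] [AddCommGroup N] [Module S N] (σ : R →+* S) {j : M →ₗ[R] R} {j' : N →ₗ[S] S}
    (hj' : Function.Injective j') (h : Ideal.map σ (LinearMap.range j) ≤ LinearMap.range j') :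
    ∃ f : M →ₛₗ[σ] N, ∀ x, j' (f x) = σ (j x) := by
  choose f hf using fun x : M =>
    LinearMap.mem_range.1 (h (Ideal.mem_map_of_mem σ (LinearMap.mem_range_self j x)))
  exact ⟨⟨⟨f, fun x y => hj' (by simp [hf])⟩, fun r x => hj' (by simp [hf])⟩, hf⟩

theorem span_range_of_map_eq {R S M N : Type u} [CommRing R] [CommRing S] [AddCommGroup M]
    [Module R M] [AddCommGroup N] [Module S N] (σ : R →+* S) {j : M →ₗ[R] R} {j' : N →ₗ[S] S}
    (hj' : Function.Injective j') (h : Ideal.map σ (LinearMap.range j) = LinearMap.range j')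
    {f : M →ₛₗ[σ] N} (hf : ∀ x, j' (f x) = σ (j x)) :
    Submodule.span S (Set.range f) = ⊤ := by
  refine Submodule.map_injective_of_injective hj' ?_
  rw [Submodule.map_span, ← Set.range_comp, Submodule.map_top, ← h,
    show (j' ∘ f : M → S) = σ ∘ j from funext hf, Set.range_comp]
  rfl

/-- Line data given by ideals base change along the images of the ideals. -/
theorem HasIdeals.isBaseChangeData {A' : Type u} [CommRing A'] [Algebra k A'] {φ : A →ₐ[k] A'}
    {D : LineData m A} {E : LineData m A'} {I0 : Ideal (m.R0 A)} {I1 : Ideal (m.R1 A)}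
    {I0' : Ideal (m.R0 A')} {I1' : Ideal (m.R1 A')} (hD : D.HasIdeals I0 I1)
    (hE : E.HasIdeals I0' I1') (h0 : I0.map (m.map0 φ) = I0') (h1 : I1.map (m.map1 φ) = I1') :
    D.IsBaseChangeData φ E := by
  obtain ⟨j0, j1, j01, i0, i1, i01, c0, c1, r0, r1⟩ := hD
  obtain ⟨l0, l1, l01, p0, p1, p01, d0, d1, s0, s1⟩ := hE
  subst r0 r1
  rw [← s0] at h0
  rw [← s1] at h1
  have h01 : Ideal.map (m.map01 φ) (LinearMap.range j01) ≤ LinearMap.range l01 := by
    rw [← map_range_res0 D j0 j01 c0, ← map_range_res0 E l0 l01 d0, ← h0, Ideal.map_map,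
      Ideal.map_map, RingHom.ext (f := (m.map01 φ).comp (m.ι0 A))
        (g := (m.ι0 A').comp (m.map0 φ)) (Point.map01_ι0 φ)]
  obtain ⟨f0, hf0⟩ := exists_restrict (m.map0 φ) p0 h0.le
  obtain ⟨f1, hf1⟩ := exists_restrict (m.map1 φ) p1 h1.le
  obtain ⟨f, hf⟩ := exists_restrict (m.map01 φ) p01 h01
  refine ⟨f0, f1, f, fun x => p01 ?_, fun x => p01 ?_, span_range_of_map_eq _ p0 h0 hf0,
    span_range_of_map_eq _ p1 h1 hf1⟩
  · rw [d0, hf0, hf, c0, Point.map01_ι0]
  · rw [d1, hf1, hf, c1, Point.map01_ι1]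

end LineData

end Fermat.Agent.Jac
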