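import Mathlib

/-!
# Trivialisations of invertible modules along a ring map
-/

set_option autoImplicit false

universe u

open scoped TensorProduct

namespace Fermat.Agent.Jac.Point

variable {R A M : Type u} [CommRing R] [CommRing A] [AddCommGroup M] [Module R M]
variable [Module.Invertible R M]

/-- Every semilinear functional is a multiple of a surjective one. -/
theorem eq_mul_of_surjective {ε : R →+* A} (l : M →ₛₗ[ε] A) (hl : Function.Surjective l)
    {d₀ : M} (hd₀ : l d₀ = 1) (f : M →ₛₗ[ε] A) (x : M) : f x = l x * f d₀ := by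
  let := ε.toAlgebra
  let l' : M →ₗ[R] A :=
    { toFun := l, map_add' := l.map_add, map_smul' := fun r y => l.map_smulₛₗ r y }
  let f' : M →ₗ[R] A :=
    { toFun := f, map_add' := f.map_add, map_smul' := fun r y => f.map_smulₛₗ r y }
  have hsurj : Function.Surjective (l'.liftBaseChange A) := fun a => by
    obtain ⟨y, rfl⟩ := hl a
    exact ⟨1 ⊗ₜ y, by simp [l']⟩
  have hinj := (Module.Invertible.bijective_of_surjective hsurj).1
  have h : (1 : A) ⊗ₜ[R] x = l x • ((1 : A) ⊗ₜ[R] d₀) := hinj (by simp [l', hd₀])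
  have := congrArg (f'.liftBaseChange A) h
  simpa [f'] using this

/-- A trivialisation along `χ ∘ ε` of a module descends to the base change of the module. -/
theorem exists_surjective_of_spanning {R' A' N : Type u} [CommRing R'] [CommRing A']
    [AddCommGroup N] [Module R' N] [Module.Invertible R' N] {ψ : R →+* R'} (ε' : R' →+* A')
    (hε' : Function.Surjective ε')
    (f : M →ₛₗ[ψ] N) (hf : Submodule.span R' (Set.range f) = ⊤)
    (g : M →ₛₗ[ε'.comp ψ] A') (hg : Submodule.span A' (Set.range g) = ⊤) :
    ∃ l : N →ₛₗ[ε'] A', Function.Surjective l := by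
  let := ψ.toAlgebra
  let := ε'.toAlgebra
  let := (ε'.comp ψ).toAlgebra
  have : IsScalarTower R R' A' := IsScalarTower.of_algebraMap_eq fun _ => rfl
  let := Module.compHom N ψ
  have : IsScalarTower R R' N := ⟨fun a b n => by
    change (ψ a * b) • n = ψ a • (b • n); rw [mul_smul]⟩
  let f' : M →ₗ[R] N :=
    { toFun := f, map_add' := f.map_add, map_smul' := fun r y => f.map_smulₛₗ r y }
  let g' : M →ₗ[R] A' :=
    { toFun := g, map_add' := g.map_add, map_smul' := fun r y => g.map_smulₛₗ r y }
  have hsurj : Function.Surjective (f'.liftBaseChange R') := by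
    rw [← LinearMap.range_eq_top, eq_top_iff, ← hf, Submodule.span_le]
    rintro _ ⟨x, rfl⟩
    exact ⟨1 ⊗ₜ x, by simp [f']⟩
  let e := LinearEquiv.ofBijective _ (Module.Invertible.bijective_of_surjective hsurj)
  have he : ∀ x, e.symm (f x) = (1 : R') ⊗ₜ[R] x := fun x => by
    rw [e.symm_apply_eq]; simp [e, f']
  let L : N →ₗ[R'] A' := (g'.liftBaseChange R').comp e.symm.toLinearMap
  let l : N →ₛₗ[ε'] A' :=
    { toFun := L, map_add' := L.map_add, map_smul' := fun r y => L.map_smul r y }
  have hlf : ∀ x, l (f x) = g x := fun x => by simp [l, L, he, g']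
  refine ⟨l, fun a => ?_⟩
  have ha : a ∈ Submodule.span A' (Set.range g) := hg ▸ trivial
  induction ha using Submodule.span_induction with
  | mem z hz => obtain ⟨w, rfl⟩ := hz; exact ⟨f w, hlf w⟩
  | zero => exact ⟨0, map_zero l⟩
  | add z z' _ _ hz hz' =>
    obtain ⟨x, rfl⟩ := hz
    obtain ⟨y, rfl⟩ := hz'
    exact ⟨x + y, map_add l x y⟩
  | smul c z _ hz =>
    obtain ⟨x, rfl⟩ := hz
    obtain ⟨r, rfl⟩ := hε' c
    exact ⟨r • x, by rw [LinearMap.map_smulₛₗ]⟩

/-- The product of two trivialisations. -/
theorem exists_surjective_mul {ε : R →+* A} {N P : Type u} [AddCommGroup N] [Module R N]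
    [Module.Invertible R N] [AddCommGroup P] [Module R P] [Module.Invertible R P]
    (g : M →ₗ[R] N →ₗ[R] P) (hg : Submodule.span R (Set.range fun p : M × N => g p.1 p.2) = ⊤)
    (a : M →ₛₗ[ε] A) (ha : Function.Surjective a) (b : N →ₛₗ[ε] A) (hb : Function.Surjective b) :
    ∃ l : P →ₛₗ[ε] A, Function.Surjective l := by
  let := ε.toAlgebra
  let a' : M →ₗ[R] A :=
    { toFun := a, map_add' := a.map_add, map_smul' := fun r y => a.map_smulₛₗ r y }
  let b' : N →ₗ[R] A :=
    { toFun := b, map_add' := b.map_add, map_smul' := fun r y => b.map_smulₛₗ r y }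
  have hsurj : Function.Surjective (TensorProduct.lift g) := by
    rw [← LinearMap.range_eq_top, eq_top_iff, ← hg, Submodule.span_le]
    rintro _ ⟨x, rfl⟩
    exact ⟨x.1 ⊗ₜ x.2, by simp⟩
  let e := LinearEquiv.ofBijective _ (Module.Invertible.bijective_of_surjective hsurj)
  let L : P →ₗ[R] A :=
    ((LinearMap.mul' R A).comp (TensorProduct.map a' b')).comp e.symm.toLinearMap
  let l : P →ₛₗ[ε] A :=
    { toFun := L, map_add' := L.map_add, map_smul' := fun r y => L.map_smul r y }
  refine ⟨l, fun c => ?_⟩
  obtain ⟨x, rfl⟩ := ha c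
  obtain ⟨y, hy⟩ := hb 1
  refine ⟨g x y, ?_⟩
  have he : e.symm (g x y) = x ⊗ₜ[R] y := by rw [e.symm_apply_eq]; simp [e]
  simp [l, L, he, a', b', hy]

/-- The inverse of a trivialised module is trivialised. -/
theorem exists_surjective_inv {ε : R →+* A} {N : Type u} [AddCommGroup N] [Module R N]
    (g : M →ₗ[R] N →ₗ[R] R) (hg : Submodule.span R (Set.range fun p : M × N => g p.1 p.2) = ⊤)
    (hε : Function.Surjective ε) (a : M →ₛₗ[ε] A) (ha : Function.Surjective a) :
    ∃ l : N →ₛₗ[ε] A, Function.Surjective l := by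
  obtain ⟨d₀, hd₀⟩ := ha 1
  let l : N →ₛₗ[ε] A :=
    { toFun := fun y => ε (g d₀ y), map_add' := fun x y => by simp,
      map_smul' := fun r y => by simp }
  refine ⟨l, fun c => ?_⟩
  have hmul : ∀ x y, ε (g x y) = a x * l y := fun x y => by
    let f : M →ₛₗ[ε] A :=
      { toFun := fun x => ε (g x y), map_add' := fun x x' => by simp,
        map_smul' := fun r x => by simp }
    exact eq_mul_of_surjective a ha hd₀ f x
  have hrange : ∀ r : R, ∃ y, l y = ε r := by
    intro r
    have hr : r ∈ Submodule.span R (Set.range fun p : M × N => g p.1 p.2) := hg ▸ trivial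
    induction hr using Submodule.span_induction with
    | mem z hz =>
      obtain ⟨⟨x, y⟩, rfl⟩ := hz
      obtain ⟨s, hs⟩ := hε (a x)
      exact ⟨s • y, by rw [LinearMap.map_smulₛₗ, hs, hmul]; rfl⟩
    | zero => exact ⟨0, by simp⟩
    | add z z' _ _ hz hz' =>
      obtain ⟨x, hx⟩ := hz
      obtain ⟨y, hy⟩ := hz'
      exact ⟨x + y, by rw [map_add l, hx, hy, map_add]⟩
    | smul t z _ hz =>
      obtain ⟨x, hx⟩ := hz
      exact ⟨t • x, by rw [LinearMap.map_smulₛₗ, hx, smul_eq_mul, smul_eq_mul, map_mul]⟩
  obtain ⟨r, rfl⟩ := hε c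
  exact hrange r

/-- Over a field every invertible module is trivialised along any ring map. -/
theorem exists_surjective_field {K : Type u} [Field K] (ε : R →+* K) :
    ∃ l : M →ₛₗ[ε] K, Submodule.span K (Set.range l) = ⊤ := by
  let := ε.toAlgebra
  obtain ⟨e⟩ := Module.Invertible.free_iff_linearEquiv.1
    (inferInstance : Module.Free K (K ⊗[R] M))
  let l : M →ₛₗ[ε] K :=
    { toFun := fun x => e (1 ⊗ₜ x)
      map_add' := fun x y => by rw [TensorProduct.tmul_add, map_add]
      map_smul' := fun r x => by
        rw [TensorProduct.tmul_smul, ← IsScalarTower.algebraMap_smul K r ((1 : K) ⊗ₜ[R] x),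
          map_smul]
        rfl }
  refine ⟨l, eq_top_iff.2 fun c _ => ?_⟩
  obtain ⟨z, rfl⟩ := e.surjective c
  induction z using TensorProduct.induction_on with
  | zero => simp
  | add z z' hz hz' => rw [map_add]; exact add_mem (hz trivial) (hz' trivial)
  | tmul b x =>
    have : b ⊗ₜ[R] x = b • ((1 : K) ⊗ₜ[R] x) := by simp [TensorProduct.smul_tmul']
    rw [this, map_smul]
    exact Submodule.smul_mem _ b (Submodule.subset_span ⟨x, rfl⟩)

/-- Every invertible module is trivialised along a ring map locally on the target. -/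
theorem exists_cover (ε : R →+* A) :
    ∃ s : Finset A, Ideal.span (s : Set A) = ⊤ ∧ ∀ f ∈ s,
      ∃ l : M →ₛₗ[(algebraMap A (Localization.Away f)).comp ε] Localization.Away f,
        Submodule.span (Localization.Away f) (Set.range l) = ⊤ := by
  let := ε.toAlgebra
  obtain ⟨s, hs, hfree⟩ :=
    Module.Invertible.exists_finset_free_localization A (A ⊗[R] M)
  refine ⟨s, hs, fun f hf => ?_⟩
  have := hfree f hf
  obtain ⟨e⟩ := Module.Invertible.free_iff_linearEquiv.1 this
  let mk := LocalizedModule.mkLinearMap (Submonoid.powers f) (A ⊗[R] M)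
  let l : M →ₛₗ[(algebraMap A (Localization.Away f)).comp ε] Localization.Away f :=
    { toFun := fun x => e (mk (1 ⊗ₜ x))
      map_add' := fun x y => by rw [TensorProduct.tmul_add, map_add, map_add]
      map_smul' := fun r x => by
        rw [TensorProduct.tmul_smul, ← IsScalarTower.algebraMap_smul A r ((1 : A) ⊗ₜ[R] x),
          map_smul, ← IsScalarTower.algebraMap_smul (Localization.Away f) (algebraMap R A r)
            (mk _), map_smul]
        rfl }
  refine ⟨l, eq_top_iff.2 fun c _ => ?_⟩
  obtain ⟨z, rfl⟩ := e.surjective c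
  induction z using LocalizedModule.induction_on with
  | h z t =>
    have ht : LocalizedModule.mk z t = (Localization.mk 1 t : Localization.Away f) • mk z := by
      simp [mk, LocalizedModule.mkLinearMap_apply, LocalizedModule.mk_smul_mk]
    rw [ht, map_smul]
    refine Submodule.smul_mem _ _ ?_
    clear ht
    induction z using TensorProduct.induction_on with
    | zero => simp
    | add z z' hz hz' => rw [map_add, map_add]; exact add_mem (hz trivial) (hz' trivial)
    | tmul b x =>
      have : b ⊗ₜ[R] x = b • ((1 : A) ⊗ₜ[R] x) := by simp [TensorProduct.smul_tmul']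
      rw [this, map_smul, ← IsScalarTower.algebraMap_smul (Localization.Away f) b (mk _), map_smul]
      exact Submodule.smul_mem _ _ (Submodule.subset_span ⟨x, rfl⟩)

omit [Module.Invertible R M] in
/-- A semilinear functional with spanning image along a surjection is surjective. -/
theorem surjective_of_span {ε : R →+* A} (hε : Function.Surjective ε) (l : M →ₛₗ[ε] A)
    (hl : Submodule.span A (Set.range l) = ⊤) : Function.Surjective l := by
  intro a
  have ha : a ∈ Submodule.span A (Set.range l) := hl ▸ trivial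
  induction ha using Submodule.span_induction with
  | mem z hz => exact hz
  | zero => exact ⟨0, map_zero l⟩
  | add z z' _ _ hz hz' =>
    obtain ⟨x, rfl⟩ := hz
    obtain ⟨y, rfl⟩ := hz'
    exact ⟨x + y, map_add l x y⟩
  | smul c z _ hz =>
    obtain ⟨x, rfl⟩ := hz
    obtain ⟨r, rfl⟩ := hε c
    exact ⟨r • x, by rw [LinearMap.map_smulₛₗ]⟩

end Fermat.Agent.Jac.Point
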