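import Mathlib

/-!
# Locally principal ideals and contraction along an injective localisation
-/

set_option autoImplicit false

universe u

open scoped TensorProduct

namespace Fermat.Agent.Jac.Point

variable {R S : Type u} [CommRing R] [CommRing S]

/-- Near every prime containing `I`, the ideal is generated by one element. -/
def LocPrincipal (I : Ideal R) : Prop :=
  ∀ P : Ideal R, P.IsPrime → I ≤ P → ∃ g ∈ I, ∃ h, h ∉ P ∧ ∀ x ∈ I, h * x ∈ Ideal.span {g}

/-- A locally principal ideal containing a regular element is invertible. -/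
theorem invertible_of_locPrincipal {I : Ideal R} {p : R} (hpI : p ∈ I)
    (hp : ∀ y : R, p * y = 0 → y = 0) (hI : LocPrincipal I) : Module.Invertible R I := by
  set J : Ideal R := (Ideal.span {p}).colon (I : Set R) with hJdef
  have hpJ : p ∈ J := Submodule.mem_colon.2 fun x _ =>
    Ideal.mul_mem_right x _ (Ideal.mem_span_singleton_self p)
  have hJ : ∀ {y}, y ∈ J ↔ ∀ x ∈ I, y * x ∈ Ideal.span {p} := by
    intro y; exact Submodule.mem_colon
  have key : ((I * J).colon ({p} : Set R)) = ⊤ := by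
    by_contra hne
    obtain ⟨P, hP, hle⟩ := Ideal.exists_le_maximal _ hne
    by_cases hIP : I ≤ P
    · obtain ⟨g, hg, h, hh, hI'⟩ := hI P hP.isPrime hIP
      obtain ⟨r, hr⟩ := Ideal.mem_span_singleton'.1 (hI' p hpI)
      have hrh : r * h ∈ J := hJ.2 fun x hx => by
        obtain ⟨a, ha⟩ := Ideal.mem_span_singleton'.1 (hI' x hx)
        exact Ideal.mem_span_singleton'.2
          ⟨a * h, by linear_combination (-a) * hr + r * ha⟩
      have hmem : h * h ∈ (I * J).colon ({p} : Set R) := Submodule.mem_colon_singleton.2 (by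
        have he : (h * h) • p = g * (r * h) := by
          simp only [smul_eq_mul]; linear_combination (-h) * hr
        rw [he]
        exact Ideal.mul_mem_mul hg hrh)
      exact hh ((hP.isPrime.mem_or_mem (hle hmem)).elim id id)
    · obtain ⟨x, hx, hxP⟩ := SetLike.not_le_iff_exists.1 hIP
      exact hxP (hle (Submodule.mem_colon_singleton.2 (Ideal.mul_mem_mul hx hpJ)))
  have hpIJ : p ∈ I * J := by
    have := Submodule.mem_colon_singleton.1 ((Ideal.eq_top_iff_one _).1 key)
    simpa using this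
  have hdiv : ∀ (y : J) (x : I), ∃ c, c * p = (y : R) * (x : R) := fun y x =>
    Ideal.mem_span_singleton'.1 (hJ.1 y.2 x x.2)
  choose c hc using hdiv
  have hinj : ∀ {a b : R}, a * p = b * p → a = b := fun {a b} hab =>
    sub_eq_zero.1 (hp (a - b) (by linear_combination hab))
  let μ₂ : J →ₗ[R] I →ₗ[R] R := LinearMap.mk₂ R c
    (fun y y' x => hinj (by
      rw [add_mul, hc, hc, hc, Submodule.coe_add]; ring))
    (fun a y x => hinj (by
      simp only [smul_eq_mul, mul_assoc, hc, Submodule.coe_smul]))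
    (fun y x x' => hinj (by
      rw [add_mul, hc, hc, hc, Submodule.coe_add]; ring))
    (fun a y x => hinj (by
      simp only [smul_eq_mul, mul_assoc, hc, Submodule.coe_smul]; ring))
  let μ : J ⊗[R] I →ₗ[R] R := TensorProduct.lift μ₂
  have hμ : ∀ y x, μ (y ⊗ₜ x) * p = (y : R) * (x : R) := hc
  have hsymm : ∀ z w : J ⊗[R] I, μ w • z = μ z • w := by
    intro z w
    induction z using TensorProduct.induction_on with
    | zero => simp
    | add z z' hz hz' => simp [smul_add, hz, hz', add_smul]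
    | tmul y x =>
      induction w using TensorProduct.induction_on with
      | zero => simp
      | add w w' hw hw' => simp [smul_add, hw, hw', add_smul]
      | tmul b a =>
        have hex : μ (b ⊗ₜ a) • x = μ (b ⊗ₜ x) • a := Subtype.ext (hinj (by
          simp only [Submodule.coe_smul, smul_eq_mul]
          linear_combination (x : R) * hμ b a - (a : R) * hμ b x))
        have hey : μ (b ⊗ₜ x) • y = μ (y ⊗ₜ x) • b := Subtype.ext (hinj (by
          simp only [Submodule.coe_smul, smul_eq_mul]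
          linear_combination (y : R) * hμ b x - (b : R) * hμ y x))
        calc μ (b ⊗ₜ a) • (y ⊗ₜ[R] x) = y ⊗ₜ[R] (μ (b ⊗ₜ a) • x) :=
              (TensorProduct.tmul_smul _ _ _).symm
          _ = y ⊗ₜ[R] (μ (b ⊗ₜ x) • a) := by rw [hex]
          _ = (μ (b ⊗ₜ x) • y) ⊗ₜ[R] a := (TensorProduct.smul_tmul _ _ _).symm
          _ = (μ (y ⊗ₜ x) • b) ⊗ₜ[R] a := by rw [hey]
          _ = μ (y ⊗ₜ x) • (b ⊗ₜ[R] a) := (TensorProduct.smul_tmul' _ _ _).symm
  have hex : ∀ z ∈ I * J, ∃ w, μ w * p = z := by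
    intro z hz
    refine Submodule.mul_induction_on hz (fun a ha b hb => ?_) (fun a b ha hb => ?_)
    · exact ⟨(⟨b, hb⟩ : J) ⊗ₜ[R] (⟨a, ha⟩ : I), by rw [hμ]; exact mul_comm b a⟩
    · obtain ⟨wa, hwa⟩ := ha
      obtain ⟨wb, hwb⟩ := hb
      exact ⟨wa + wb, by rw [map_add, add_mul, hwa, hwb]⟩
  obtain ⟨w, hw⟩ := hex p hpIJ
  have hw1 : μ w = 1 := hinj (by rw [hw, one_mul])
  have hbij : Function.Bijective μ := by
    refine ⟨fun z z' hzz => ?_, fun a => ⟨a • w, by simp [hw1]⟩⟩
    have h1 := hsymm z w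
    have h2 := hsymm z' w
    rw [hw1, one_smul] at h1 h2
    rw [h1, h2, hzz]
  exact Module.Invertible.right (LinearEquiv.ofBijective μ hbij)

/-- `ι` is the localisation at the powers of `e`, and is injective. -/
structure InjAway (ι : R →+* S) (e : R) : Prop where
  inj : Function.Injective ι
  isUnit : IsUnit (ι e)
  surj : ∀ x : S, ∃ (n : ℕ) (y : R), ι y = ι e ^ n * x

theorem InjAway.isLocalization {ι : R →+* S} {e : R} (h : InjAway ι e) :
    letI := ι.toAlgebra
    IsLocalization (Submonoid.powers e) S := by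
  let := ι.toAlgebra
  refine ⟨?_, ?_, ?_⟩
  · rintro ⟨_, n, rfl⟩
    exact (map_pow ι e n).symm ▸ h.isUnit.pow n
  · intro z
    obtain ⟨n, y, hy⟩ := h.surj z
    exact ⟨⟨y, ⟨e ^ n, n, rfl⟩⟩, by
      rw [RingHom.algebraMap_toAlgebra, map_pow, hy, mul_comm]⟩
  · intro x y hxy
    exact ⟨1, by rw [h.inj hxy]⟩

theorem InjAway.map_comap {ι : R →+* S} {e : R} (h : InjAway ι e) (J : Ideal S) :
    (J.comap ι).map ι = J := by
  let := ι.toAlgebra
  have := h.isLocalization
  exact IsLocalization.map_under (Submonoid.powers e) S J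

theorem InjAway.regular_map {ι : R →+* S} {e : R} (h : InjAway ι e) {p : R}
    (hp : ∀ y : R, p * y = 0 → y = 0) (y : S) (hy : ι p * y = 0) : y = 0 := by
  obtain ⟨n, y', hy'⟩ := h.surj y
  have h1 : ι (p * y') = 0 := by
    rw [map_mul, hy', mul_left_comm, hy, mul_zero]
  have h2 : y' = 0 := hp y' (h.inj (by rw [h1, map_zero]))
  rw [h2, map_zero] at hy'
  exact ((h.isUnit.pow n).mul_right_eq_zero).1 hy'.symm

theorem LocPrincipal.map {ι : R →+* S} {I : Ideal R} (hI : LocPrincipal I) :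
    LocPrincipal (I.map ι) := by
  intro Q hQ hle
  have := hQ
  obtain ⟨g, hg, h, hh, hI'⟩ := hI (Q.comap ι) inferInstance
    (Ideal.map_le_iff_le_comap.1 hle)
  refine ⟨ι g, Ideal.mem_map_of_mem ι hg, ι h, fun hmem => hh hmem, fun x hx => ?_⟩
  have hle' : I.map ι ≤ (Ideal.span {ι g}).colon ({ι h} : Set S) := by
    refine Ideal.map_le_iff_le_comap.2 fun y hy => ?_
    rw [Ideal.mem_comap, Submodule.mem_colon_singleton, smul_eq_mul]
    obtain ⟨a, ha⟩ := Ideal.mem_span_singleton'.1 (hI' y hy)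
    exact Ideal.mem_span_singleton'.2 ⟨ι a, by rw [← map_mul, ha, map_mul, mul_comm]⟩
  have := Submodule.mem_colon_singleton.1 (hle' hx)
  rwa [smul_eq_mul, mul_comm] at this

theorem InjAway.comap_map_eq {ι : R →+* S} {e : R} (h : InjAway ι e) {J : Ideal R} {f : R}
    (hf : f * e - 1 ∈ J) : (J.map ι).comap ι = J := by
  refine le_antisymm (fun x hx => ?_) Ideal.le_comap_map
  let := ι.toAlgebra
  have := h.isLocalization
  obtain ⟨_, ⟨n, rfl⟩, hn⟩ :=
    (IsLocalization.algebraMap_mem_map_algebraMap_iff (Submonoid.powers e) S J x).1 hx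
  have hd : (f * e) ^ n - 1 ∈ J := Ideal.mem_of_dvd _ (sub_one_dvd_pow_sub_one _ n) hf
  have : x = f ^ n * (e ^ n * x) - ((f * e) ^ n - 1) * x := by rw [mul_pow]; ring
  rw [this]
  exact J.sub_mem (J.mul_mem_left _ hn) (J.mul_mem_right _ hd)

/-- Contraction of a locally principal ideal along an injective localisation is locally
principal. -/
theorem InjAway.locPrincipal_comap {ι : R →+* S} {e : R} (h : InjAway ι e) {J : Ideal S} {f : R}
    (hf : ι (f * e - 1) ∈ J) (hJ : LocPrincipal J) : LocPrincipal (J.comap ι) := by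
  let := ι.toAlgebra
  have := h.isLocalization
  intro P hP hle
  have heP : e ∉ P := fun he => hP.ne_top <| (Ideal.eq_top_iff_one P).2 <| by
    have h1 : f * e - (f * e - 1) ∈ P := P.sub_mem (P.mul_mem_left f he) (hle hf)
    simpa using h1
  have hdisj : Disjoint (Submonoid.powers e : Set R) P := by
    rw [Set.disjoint_left]
    rintro _ ⟨n, rfl⟩ hn
    exact heP (hP.mem_of_pow_mem n hn)
  have hQ : (P.map ι).IsPrime :=
    IsLocalization.isPrime_of_isPrime_disjoint (Submonoid.powers e) S P hP hdisj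
  have hcomap : (P.map ι).comap ι = P :=
    IsLocalization.under_map_of_isPrime_disjoint (Submonoid.powers e) S hP hdisj
  have hJQ : J ≤ P.map ι := by
    rw [← h.map_comap J]
    exact Ideal.map_mono hle
  obtain ⟨g, hg, h', hh', hJ'⟩ := hJ (P.map ι) hQ hJQ
  obtain ⟨n, g', hg'⟩ := h.surj g
  obtain ⟨m, h'', hh''⟩ := h.surj h'
  have hg'mem : g' ∈ J.comap ι := by
    rw [Ideal.mem_comap, hg']; exact J.mul_mem_left _ hg
  have hspan : ∀ x ∈ J.comap ι, ∃ N : ℕ, e ^ N * (h'' * x) ∈ Ideal.span {g'} := by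
    intro x hx
    obtain ⟨a, ha⟩ := Ideal.mem_span_singleton'.1 (hJ' (ι x) hx)
    have hmem : ι (h'' * x) ∈ (Ideal.span {g'}).map ι := by
      rw [Ideal.map_span, Set.image_singleton]
      obtain ⟨w, hw⟩ := h.isUnit.pow n
      refine Ideal.mem_span_singleton'.2 ⟨a * ι e ^ m * ↑w⁻¹, ?_⟩
      rw [map_mul, hh'', hg', ← hw]
      linear_combination (ι e ^ m) * ha +
        (a * ι e ^ m * g) * w.inv_mul
    obtain ⟨_, ⟨N, rfl⟩, hN⟩ :=
      (IsLocalization.algebraMap_mem_map_algebraMap_iff (Submonoid.powers e) S _ _).1 hmem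
    exact ⟨N, hN⟩
  obtain ⟨N, hN⟩ := hspan (f * e - 1) hf
  refine ⟨g', hg'mem, e ^ N * h'', fun hmem => ?_, fun x hx => ?_⟩
  · rcases hP.mem_or_mem hmem with h1 | h1
    · exact heP (hP.mem_of_pow_mem N h1)
    · refine hh' ?_
      have h2 : ι h'' ∈ P.map ι := Ideal.mem_map_of_mem ι h1
      rw [hh''] at h2
      exact (hQ.mem_or_mem h2).resolve_left fun h3 =>
        hQ.ne_top (Ideal.eq_top_of_isUnit_mem _ h3 (h.isUnit.pow m))
  · obtain ⟨M, hM⟩ := hspan x hx
    obtain ⟨q, hq⟩ := sub_one_dvd_pow_sub_one (f * e) M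
    have : e ^ N * h'' * x =
        (f ^ M * e ^ N) * (e ^ M * (h'' * x)) - (q * x) * (e ^ N * (h'' * (f * e - 1))) := by
      rw [mul_pow] at hq
      linear_combination (-(e ^ N * h'' * x)) * hq
    rw [this]
    exact Ideal.sub_mem _ (Ideal.mul_mem_left _ _ hM) (Ideal.mul_mem_left _ _ hN)

end Fermat.Agent.Jac.Point
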